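/-
S15lib / Dict / EA / Main  (helper3) — Project E, block (DICT), sub-block (EA)(V).

`veluLatStmt : Dict.VeluLatStmt` (helper8's statement), from helper9's lattice layer and coset sums
(`Dict/Lat.lean`, `Dict/LatSum.lean`: the superlattice `Λ + ℤ z₀` as a period pair, Vélu's formulas for
its `g₂`, `g₃`, the modular equation) and the discriminant identity `EA.IsSuper.disc_mul_prod_pow`.
-/
import Fermat.Agent.S15lib.Dict.Iface
import Fermat.Agent.S15lib.Dict.LatSum
import Fermat.Agent.S15lib.Dict.EA.Velu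

set_option autoImplicit false

noncomputable section

open scoped PeriodPair

namespace Fermat.Agent.S15lib.Dict.EA

open Fermat.Agent.S15lib.Dict

/-- **(EA)(V)** -/
theorem veluLatStmt : Dict.VeluLatStmt := by
  intro p _ hodd L z₀ hz hpz
  intro g₂' g₃'
  obtain ⟨L', hL', h2, h3, -⟩ := Lat.exists_superlattice_velu L hz hpz
  have hS : IsSuper L L' p z₀ := ⟨Fact.out, hodd, hz, hpz, hL'⟩
  have hV2 := hS.disc_mul_prod_pow
  refine ⟨?_, Lat.veluLat_modular L z₀ hz hpz⟩
  have e2 : L'.g₂ = g₂' := h2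
  have e3 : L'.g₃ = g₃' := h3
  rw [disc, disc, e2, e3] at hV2
  exact hV2

end Fermat.Agent.S15lib.Dict.EA

end
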