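/-
S15lib / Dict / EA / Basic  (helper3) — Project E, block (DICT), sub-block (EA)(T): toolkit on
Mathlib's `PeriodPair` / `℘`.

* `hasDerivAt_wp`, `hasDerivAt_dwp` : `℘' = deriv ℘`, `℘'' = 6℘² − g₂/2` off the lattice;
* `order_dwp` : `℘'` has a pole of order `3` at the lattice points;
* periodicity / parity in the form used later.
-/
import Mathlib
import Fermat.Agent.ProgramR.LevelOne.WPUnique

set_option autoImplicit false

noncomputable section

open Filter Topology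
open scoped PeriodPair

namespace Fermat.Agent.S15lib.Dict.EA

open Fermat.Agent.ProgramR.LevelOne

variable (L : PeriodPair)

lemma isOpen_compl_lattice : IsOpen ((L.lattice : Set ℂ)ᶜ) := L.isClosed_lattice.isOpen_compl

lemma isPreconnected_compl_lattice : IsPreconnected ((L.lattice : Set ℂ)ᶜ) := by
  have hr : 1 < Module.rank ℝ ℂ := by
    rw [Complex.rank_real_complex]; norm_num
  exact ((countable_lattice L).isPathConnected_compl_of_one_lt_rank hr).isConnected.isPreconnected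

variable {L}

lemma analyticAt_wp {z : ℂ} (hz : z ∉ L.lattice) : AnalyticAt ℂ ℘[L] z :=
  L.analyticOnNhd_weierstrassP z hz

lemma analyticAt_dwp {z : ℂ} (hz : z ∉ L.lattice) : AnalyticAt ℂ ℘'[L] z :=
  L.analyticOnNhd_derivWeierstrassP z hz

lemma hasDerivAt_wp {z : ℂ} (hz : z ∉ L.lattice) : HasDerivAt ℘[L] (℘'[L] z) z := by
  have h := (analyticAt_wp hz).differentiableAt.hasDerivAt
  rwa [L.deriv_weierstrassP] at h

lemma wp_add_mem {ω : ℂ} (hω : ω ∈ L.lattice) (z : ℂ) : ℘[L] (z + ω) = ℘[L] z :=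
  L.weierstrassP_add_coe z ⟨ω, hω⟩

lemma dwp_add_mem {ω : ℂ} (hω : ω ∈ L.lattice) (z : ℂ) : ℘'[L] (z + ω) = ℘'[L] z :=
  L.derivWeierstrassP_add_coe z ⟨ω, hω⟩

lemma wp_sub_mem {ω : ℂ} (hω : ω ∈ L.lattice) (z : ℂ) : ℘[L] (z - ω) = ℘[L] z :=
  L.weierstrassP_sub_coe z ⟨ω, hω⟩

lemma dwp_sub_mem {ω : ℂ} (hω : ω ∈ L.lattice) (z : ℂ) : ℘'[L] (z - ω) = ℘'[L] z :=
  L.derivWeierstrassP_sub_coe z ⟨ω, hω⟩

lemma wp_congr {z w : ℂ} (h : z - w ∈ L.lattice) : ℘[L] z = ℘[L] w := by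
  have := wp_add_mem h w
  rwa [add_sub_cancel] at this

lemma dwp_congr {z w : ℂ} (h : z - w ∈ L.lattice) : ℘'[L] z = ℘'[L] w := by
  have := dwp_add_mem h w
  rwa [add_sub_cancel] at this

lemma add_mem_iff_of_mem {ω z : ℂ} (hω : ω ∈ L.lattice) : z + ω ∈ L.lattice ↔ z ∈ L.lattice :=
  L.lattice.add_mem_iff_left hω

lemma neg_mem_iff' {z : ℂ} : -z ∈ L.lattice ↔ z ∈ L.lattice := L.lattice.neg_mem_iff

variable (L)

/-- `℘'` does not vanish identically. -/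
lemma exists_dwp_ne_zero : ∃ z, z ∉ L.lattice ∧ ℘'[L] z ≠ 0 := by
  have hc : ContinuousAt (wpQ L) 0 := (analyticAt_wpQ L).continuousAt
  have h1 : ∀ᶠ z in 𝓝 (0 : ℂ), wpQ L z ≠ 0 := by
    apply hc.eventually_ne
    rw [wpQ_zero]
    norm_num
  have h2 : ∀ᶠ z in 𝓝[≠] (0 : ℂ), wpQ L z ≠ 0 ∧ (z ≠ 0 → z ∉ L.lattice) :=
    (h1.and (eventually_not_mem_lattice L)).filter_mono nhdsWithin_le_nhds
  have h3 : ∀ᶠ z in 𝓝[≠] (0 : ℂ), z ≠ 0 := eventually_mem_nhdsWithin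
  obtain ⟨z, ⟨hz1, hz2⟩, hz0⟩ := (h2.and h3).exists
  refine ⟨z, hz2 hz0, ?_⟩
  rw [wpQ_eq L hz0] at hz1
  exact right_ne_zero_of_mul hz1

/-- **`℘'' = 6℘² − g₂/2`** off the lattice. -/
theorem hasDerivAt_dwp {z : ℂ} (hz : z ∉ L.lattice) :
    HasDerivAt ℘'[L] (6 * ℘[L] z ^ 2 - L.g₂ / 2) z := by
  set U : Set ℂ := (L.lattice : Set ℂ)ᶜ with hU
  have hUo : IsOpen U := isOpen_compl_lattice L
  -- the function `g = ℘'' − (6℘² − g₂/2)`
  set g : ℂ → ℂ := fun w => deriv ℘'[L] w - (6 * ℘[L] w ^ 2 - L.g₂ / 2) with hg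
  have hgA : AnalyticOnNhd ℂ g U := by
    intro w hw
    have h1 : AnalyticAt ℂ (deriv ℘'[L]) w := (analyticAt_dwp hw).deriv
    have h2 : AnalyticAt ℂ ℘[L] w := analyticAt_wp hw
    exact h1.sub (((analyticAt_const).mul (h2.pow 2)).sub analyticAt_const)
  -- the differentiated relation
  have hrel : ∀ w ∈ U, ℘'[L] w * g w = 0 := by
    intro w hw
    have hd1 : HasDerivAt ℘'[L] (deriv ℘'[L] w) w := (analyticAt_dwp hw).differentiableAt.hasDerivAt
    have hd2 : HasDerivAt ℘[L] (℘'[L] w) w := hasDerivAt_wp hw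
    have e1 : HasDerivAt (fun v => ℘'[L] v ^ 2) (2 * ℘'[L] w * deriv ℘'[L] w) w := by
      exact (hd1.fun_pow 2).congr_deriv (by push_cast; ring)
    have e2 : HasDerivAt (fun v => 4 * ℘[L] v ^ 3 - L.g₂ * ℘[L] v - L.g₃)
        (4 * (3 * ℘[L] w ^ 2 * ℘'[L] w) - L.g₂ * ℘'[L] w) w := by
      have h3 : HasDerivAt (fun v => ℘[L] v ^ 3) (3 * ℘[L] w ^ 2 * ℘'[L] w) w := by
        exact (hd2.fun_pow 3).congr_deriv (by push_cast; ring)
      exact ((h3.const_mul 4).sub (hd2.const_mul L.g₂)).sub_const L.g₃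
    have heq : (fun v => ℘'[L] v ^ 2) =ᶠ[𝓝 w]
        fun v => 4 * ℘[L] v ^ 3 - L.g₂ * ℘[L] v - L.g₃ := by
      filter_upwards [hUo.mem_nhds hw] with v hv
      exact L.derivWeierstrassP_sq v hv
    have h4 := (e1.congr_of_eventuallyEq heq.symm).unique e2
    show ℘'[L] w * (deriv ℘'[L] w - (6 * ℘[L] w ^ 2 - L.g₂ / 2)) = 0
    linear_combination (1 / 2 : ℂ) * h4
  -- `g` vanishes on `U`
  have hg0 : ∀ w ∈ U, g w = 0 := by
    intro w hw
    rcases (analyticAt_dwp hw).eventually_eq_zero_or_eventually_ne_zero with h | h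
    · exfalso
      obtain ⟨z₁, hz₁, hz₁'⟩ := exists_dwp_ne_zero L
      have hA : AnalyticOnNhd ℂ ℘'[L] U := L.analyticOnNhd_derivWeierstrassP
      have := hA.eqOn_zero_of_preconnected_of_eventuallyEq_zero
        (isPreconnected_compl_lattice L) hw h
      exact hz₁' (this hz₁)
    · have h5 : ∃ᶠ v in 𝓝[≠] w, g v = 0 := by
        apply Eventually.frequently
        filter_upwards [h, (hUo.mem_nhds hw : U ∈ 𝓝 w) |> mem_nhdsWithin_of_mem_nhds] with v hv hvU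
        exact (mul_eq_zero.mp (hrel v hvU)).resolve_left hv
      exact ((hgA w hw).frequently_zero_iff_eventually_zero.mp h5).self_of_nhds
  have h6 := hg0 z hz
  have hd1 : HasDerivAt ℘'[L] (deriv ℘'[L] z) z := (analyticAt_dwp hz).differentiableAt.hasDerivAt
  have : deriv ℘'[L] z = 6 * ℘[L] z ^ 2 - L.g₂ / 2 := sub_eq_zero.mp h6
  rwa [this] at hd1

/-- `℘'` has a pole of order `3` at the lattice points. -/
lemma order_dwp {l : ℂ} (hl : l ∈ L.lattice) : meromorphicOrderAt ℘'[L] l = ((-3 : ℤ) : WithTop ℤ) := by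
  have h1 : meromorphicOrderAt ℘[L] l = ((-2 : ℤ) : WithTop ℤ) := by
    rw [L.order_weierstrassP l hl]; rfl
  have h2 := meromorphicOrderAt_deriv_eq_sub_one (𝕜 := ℂ) (n := -2) (by norm_num) h1
  rw [L.deriv_weierstrassP] at h2
  rw [h2]
  norm_num

end Fermat.Agent.S15lib.Dict.EA

end
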