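/-
S15lib / Dict / EA / Key  (helper3) — Project E, block (DICT), sub-block (EA)(T).

The **key lemma** (uniqueness for the ODE `u'' = 6u² − g₂/2`): if `℘(z₁) = ℘(z₂)` and `℘'(z₁) = ℘'(z₂)`
then `z₁ − z₂ ∈ L`.  Consequences (no argument principle needed):
* `dwp_eq_zero_iff` : `℘'(z) = 0 ↔ 2z ∈ L`;
* `wp_eq_iff`       : `℘(z) = ℘(w) ↔ z − w ∈ L ∨ z + w ∈ L`.
-/
import Fermat.Agent.S15lib.Dict.EA.Basic

set_option autoImplicit false

noncomputable section

open Filter Topology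
open scoped PeriodPair

namespace Fermat.Agent.S15lib.Dict.EA

open Fermat.Agent.ProgramR.LevelOne

/-- an analytic solution of `d'' = h d` with `d(x) = d'(x) = 0` vanishes near `x` -/
theorem eventually_eq_zero_of_ode {d h : ℂ → ℂ} {x : ℂ} (hd : AnalyticAt ℂ d x)
    (hh : AnalyticAt ℂ h x) (h0 : d x = 0) (h1 : deriv d x = 0)
    (hode : deriv (deriv d) =ᶠ[𝓝 x] fun z => h z * d z) : ∀ᶠ z in 𝓝 x, d z = 0 := by
  by_contra hne
  have htop : analyticOrderAt d x ≠ ⊤ := by rwa [Ne, analyticOrderAt_eq_top]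
  obtain ⟨n, hn⟩ := ENat.ne_top_iff_exists.mp htop
  have hn0 : n ≠ 0 := by
    rintro rfl
    have : analyticOrderAt d x ≠ 0 := hd.analyticOrderAt_ne_zero.mpr h0
    exact this hn.symm
  obtain ⟨m, rfl⟩ := Nat.exists_eq_succ_of_ne_zero hn0
  have hm : analyticOrderAt (deriv d) x = m :=
    analyticOrderAt_deriv_of_pos hd (by rw [← hn]; push_cast; rfl)
  have hm0 : m ≠ 0 := by
    rintro rfl
    have : analyticOrderAt (deriv d) x ≠ 0 := hd.deriv.analyticOrderAt_ne_zero.mpr h1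
    exact this (by rw [hm]; rfl)
  obtain ⟨k, rfl⟩ := Nat.exists_eq_succ_of_ne_zero hm0
  have hk : analyticOrderAt (deriv (deriv d)) x = k :=
    analyticOrderAt_deriv_of_pos hd.deriv (by rw [hm]; push_cast; rfl)
  have h2 : analyticOrderAt (deriv (deriv d)) x = analyticOrderAt (fun z => h z * d z) x :=
    analyticOrderAt_congr hode
  have h3 : analyticOrderAt (fun z => h z * d z) x = analyticOrderAt h x + analyticOrderAt d x :=
    analyticOrderAt_mul hh hd
  rw [h2, h3, ← hn] at hk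
  have h4 : ((k.succ.succ : ℕ) : ℕ∞) ≤ analyticOrderAt h x + ((k.succ.succ : ℕ) : ℕ∞) :=
    le_add_self
  rw [hk] at h4
  have : k.succ.succ ≤ k := by exact_mod_cast h4
  omega

variable {L : PeriodPair}

/-- **the key lemma** -/
theorem sub_mem_lattice_of_wp_eq_of_dwp_eq {z₁ z₂ : ℂ} (h1 : z₁ ∉ L.lattice) (h2 : z₂ ∉ L.lattice)
    (he : ℘[L] z₁ = ℘[L] z₂) (he' : ℘'[L] z₁ = ℘'[L] z₂) : z₁ - z₂ ∈ L.lattice := by
  set c : ℂ := z₂ - z₁ with hc
  have hz₂ : z₁ + c = z₂ := by rw [hc]; ring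
  let u : ℂ → ℂ := ℘[L]
  let v : ℂ → ℂ := fun z => ℘[L] (z + c)
  -- the good set
  set S : Set ℂ := (L.lattice : Set ℂ) ∪ (fun l => l - c) '' (L.lattice : Set ℂ) with hS
  have hSc : S.Countable := (countable_lattice L).union ((countable_lattice L).image _)
  have hSclosed : IsClosed S := by
    refine L.isClosed_lattice.union ?_
    have : (fun l => l - c) '' (L.lattice : Set ℂ) = (fun z => z + c) ⁻¹' (L.lattice : Set ℂ) := by
      ext z
      constructor
      · rintro ⟨l, hl, rfl⟩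
        show l - c + c ∈ L.lattice
        rwa [sub_add_cancel]
      · intro hz
        exact ⟨z + c, hz, by ring⟩
    rw [this]
    exact L.isClosed_lattice.preimage (by fun_prop)
  have hmemS : ∀ z, z ∉ S ↔ z ∉ L.lattice ∧ z + c ∉ L.lattice := by
    intro z
    rw [hS, Set.mem_union, not_or]
    refine and_congr Iff.rfl (not_congr ?_)
    constructor
    · rintro ⟨l, hl, rfl⟩
      rwa [sub_add_cancel]
    · intro hz
      exact ⟨z + c, hz, by ring⟩
  have hUo : IsOpen Sᶜ := hSclosed.isOpen_compl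
  have hUconn : IsPreconnected Sᶜ := by
    have hr : 1 < Module.rank ℝ ℂ := by
      rw [Complex.rank_real_complex]; norm_num
    exact (hSc.isPathConnected_compl_of_one_lt_rank hr).isConnected.isPreconnected
  have huA : AnalyticOnNhd ℂ u Sᶜ := fun z hz => analyticAt_wp ((hmemS z).1 hz).1
  have hvD : ∀ z ∈ Sᶜ, HasDerivAt v (℘'[L] (z + c)) z := fun z hz =>
    (hasDerivAt_wp ((hmemS z).1 hz).2).comp_add_const z c
  have hvA : AnalyticOnNhd ℂ v Sᶜ := by
    intro z hz
    have : AnalyticAt ℂ ℘[L] (z + c) := analyticAt_wp ((hmemS z).1 hz).2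
    exact this.comp_of_eq (by fun_prop) rfl
  have hz₁S : z₁ ∈ Sᶜ := (hmemS z₁).2 ⟨h1, by rw [hz₂]; exact h2⟩
  -- the difference
  let d : ℂ → ℂ := fun z => u z - v z
  have hdD : ∀ z ∈ Sᶜ, HasDerivAt d (℘'[L] z - ℘'[L] (z + c)) z := fun z hz =>
    (hasDerivAt_wp ((hmemS z).1 hz).1).sub (hvD z hz)
  have hdd : ∀ z ∈ Sᶜ, deriv d z = ℘'[L] z - ℘'[L] (z + c) := fun z hz => (hdD z hz).deriv
  have hddD : ∀ z ∈ Sᶜ, HasDerivAt (deriv d)
      ((6 * ℘[L] z ^ 2 - L.g₂ / 2) - (6 * ℘[L] (z + c) ^ 2 - L.g₂ / 2)) z := by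
    intro z hz
    have e1 : HasDerivAt (fun w => ℘'[L] w - ℘'[L] (w + c))
        ((6 * ℘[L] z ^ 2 - L.g₂ / 2) - (6 * ℘[L] (z + c) ^ 2 - L.g₂ / 2)) z :=
      (hasDerivAt_dwp L ((hmemS z).1 hz).1).sub
        ((hasDerivAt_dwp L ((hmemS z).1 hz).2).comp_add_const z c)
    refine e1.congr_of_eventuallyEq ?_
    filter_upwards [hUo.mem_nhds hz] with w hw
    exact hdd w hw
  have hzero : ∀ᶠ z in 𝓝 z₁, d z = 0 := by
    refine eventually_eq_zero_of_ode (h := fun z => 6 * (u z + v z))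
      ((huA z₁ hz₁S).sub (hvA z₁ hz₁S))
      (analyticAt_const.mul ((huA z₁ hz₁S).add (hvA z₁ hz₁S))) ?_ ?_ ?_
    · show ℘[L] z₁ - ℘[L] (z₁ + c) = 0
      rw [hz₂, he, sub_self]
    · rw [hdd z₁ hz₁S, hz₂, he', sub_self]
    · filter_upwards [hUo.mem_nhds hz₁S] with z hz
      rw [(hddD z hz).deriv]
      show _ = 6 * (℘[L] z + ℘[L] (z + c)) * (℘[L] z - ℘[L] (z + c))
      ring
  have hEq : Set.EqOn u v Sᶜ := by
    refine huA.eqOn_of_preconnected_of_eventuallyEq hvA hUconn hz₁S ?_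
    filter_upwards [hzero] with z hz
    exact sub_eq_zero.mp hz
  -- the pole at `-c`
  by_contra hcon
  have hcL : -c ∉ L.lattice := by
    have : -c = z₁ - z₂ := by rw [hc]; ring
    rwa [this]
  have hN : (fun z : ℂ => z + c) ⁻¹' ((L.lattice : Set ℂ) \ {0})ᶜ ∈ 𝓝 (-c) := by
    have hcont : ContinuousAt (fun z : ℂ => z + c) (-c) :=
      (continuous_id.add continuous_const).continuousAt
    apply hcont.preimage_mem_nhds
    have h0 : (-c + c : ℂ) = 0 := by ring
    rw [h0]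
    exact L.compl_lattice_sdiff_singleton_mem_nhds 0
  have hev : u =ᶠ[𝓝[≠] (-c)] v := by
    rw [Filter.EventuallyEq, eventually_nhdsWithin_iff]
    filter_upwards [L.isClosed_lattice.isOpen_compl.mem_nhds hcL, hN] with z hz1 hz2 hzc
    apply hEq
    refine (hmemS z).2 ⟨hz1, fun hz3 => hz2 ⟨hz3, ?_⟩⟩
    intro hz4
    apply hzc
    have hz5 : z + c = 0 := hz4
    show z = -c
    linear_combination hz5
  have ho1 : (0 : WithTop ℤ) ≤ meromorphicOrderAt u (-c) :=
    (analyticAt_wp hcL).meromorphicOrderAt_nonneg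
  have ho2 : meromorphicOrderAt v (-c) = -2 := by
    have := meromorphicOrderAt_comp_add_const_eq_meromorphicOrderAt (f := ℘[L]) (c := c) (x := -c)
    have h0 : (-c + c : ℂ) = 0 := by ring
    rw [h0, L.order_weierstrassP 0 L.lattice.zero_mem] at this
    exact this
  rw [meromorphicOrderAt_congr hev, ho2] at ho1
  exact absurd ho1 (by decide)

/-- **the zeros of `℘'` are the half-periods** -/
theorem dwp_eq_zero_iff {z : ℂ} (hz : z ∉ L.lattice) : ℘'[L] z = 0 ↔ 2 * z ∈ L.lattice := by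
  constructor
  · intro h0
    have hnz : -z ∉ L.lattice := fun h => hz (neg_mem_iff'.1 h)
    have := sub_mem_lattice_of_wp_eq_of_dwp_eq hz hnz (L.weierstrassP_neg z).symm
      (by rw [L.derivWeierstrassP_neg, h0, neg_zero])
    have e : z - -z = 2 * z := by ring
    rwa [e] at this
  · intro h2
    have h1 : ℘'[L] (z - 2 * z) = ℘'[L] z := dwp_sub_mem h2 z
    have e : z - 2 * z = -z := by ring
    rw [e, L.derivWeierstrassP_neg] at h1
    have : (2 : ℂ) * ℘'[L] z = 0 := by linear_combination -h1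
    exact (mul_eq_zero.mp this).resolve_left two_ne_zero

/-- **`℘` has degree two** -/
theorem wp_eq_iff {z w : ℂ} (hz : z ∉ L.lattice) (hw : w ∉ L.lattice) :
    ℘[L] z = ℘[L] w ↔ z - w ∈ L.lattice ∨ z + w ∈ L.lattice := by
  constructor
  · intro h
    have h1 : ℘'[L] z ^ 2 = ℘'[L] w ^ 2 := by
      rw [L.derivWeierstrassP_sq z hz, L.derivWeierstrassP_sq w hw, h]
    have h2 : (℘'[L] z - ℘'[L] w) * (℘'[L] z + ℘'[L] w) = 0 := by linear_combination h1
    rcases mul_eq_zero.mp h2 with h3 | h3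
    · exact Or.inl (sub_mem_lattice_of_wp_eq_of_dwp_eq hz hw h (sub_eq_zero.mp h3))
    · right
      have hnw : -w ∉ L.lattice := fun h => hw (neg_mem_iff'.1 h)
      have := sub_mem_lattice_of_wp_eq_of_dwp_eq hz hnw (by rw [L.weierstrassP_neg, h])
        (by rw [L.derivWeierstrassP_neg]; linear_combination h3)
      have e : z - -w = z + w := by ring
      rwa [e] at this
  · rintro (h | h)
    · exact wp_congr h
    · have e : z - -w = z + w := by ring
      have := wp_congr (L := L) (z := z) (w := -w) (by rw [e]; exact h)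
      rwa [L.weierstrassP_neg] at this

end Fermat.Agent.S15lib.Dict.EA

end
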