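/-
S15lib / Dict / EA / Liouville  (helper3) — Project E, block (DICT), sub-block (EA)(T).

**Liouville for elliptic functions**: a meromorphic function on `ℂ`, periodic for a lattice, all of
whose orders are `≥ 0`, is constant (on a punctured neighbourhood of every point, hence at every point
of continuity).  Corollary: `℘` takes every value.
-/
import Fermat.Agent.S15lib.Dict.EA.Basic

set_option autoImplicit false

noncomputable section

open Filter Topology
open scoped PeriodPair

namespace Fermat.Agent.S15lib.Dict.EA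

open Fermat.Agent.ProgramR.LevelOne

lemma tendsto_add_const_nhdsNE (x ω : ℂ) : Tendsto (fun z : ℂ => z + ω) (𝓝[≠] x) (𝓝[≠] (x + ω)) := by
  apply tendsto_nhdsWithin_of_tendsto_nhds_of_eventually_within
  · exact ((continuous_id.add continuous_const).tendsto x).mono_left nhdsWithin_le_nhds
  · filter_upwards [self_mem_nhdsWithin] with z hz
    intro h
    apply hz
    have h' : z + ω = x + ω := h
    exact add_right_cancel h'

/-- **Liouville** for lattice-periodic meromorphic functions without poles. -/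
theorem exists_const_of_periodic (L : PeriodPair) {f : ℂ → ℂ} (hf : ∀ x, MeromorphicAt f x)
    (hper : ∀ ω ∈ L.lattice, ∀ z, f (z + ω) = f z)
    (hord : ∀ x, 0 ≤ meromorphicOrderAt f x) :
    ∃ c : ℂ, ∀ x, f =ᶠ[𝓝[≠] x] fun _ => c := by
  have hfU : MeromorphicOn f Set.univ := fun x _ => hf x
  set g : ℂ → ℂ := toMeromorphicNFOn f Set.univ with hg
  have hgNF : MeromorphicNFOn g Set.univ := meromorphicNFOn_toMeromorphicNFOn f Set.univ
  have hfg : ∀ x, g =ᶠ[𝓝[≠] x] f := fun x => hfU.toMeromorphicNFOn_eq_self_on_nhdsNE (Set.mem_univ x)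
  have hgA : ∀ x, AnalyticAt ℂ g x := by
    intro x
    apply (hgNF (Set.mem_univ x)).meromorphicOrderAt_nonneg_iff_analyticAt.mp
    rw [meromorphicOrderAt_congr (hfg x)]
    exact hord x
  have hgD : Differentiable ℂ g := fun x => (hgA x).differentiableAt
  have hgper : ∀ z w, w ∈ L.lattice → g (z + w) = g z := by
    intro x ω hω
    have h1 : Tendsto (fun z => g (z + ω)) (𝓝[≠] x) (𝓝 (g (x + ω))) :=
      ((hgA (x + ω)).continuousAt.tendsto.mono_left nhdsWithin_le_nhds).comp
        (tendsto_add_const_nhdsNE x ω)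
    have h2 : Tendsto g (𝓝[≠] x) (𝓝 (g x)) :=
      (hgA x).continuousAt.tendsto.mono_left nhdsWithin_le_nhds
    have h3 : (fun z => g (z + ω)) =ᶠ[𝓝[≠] x] g := by
      have e1 : ∀ᶠ z in 𝓝[≠] x, g (z + ω) = f (z + ω) :=
        (tendsto_add_const_nhdsNE x ω).eventually (hfg (x + ω))
      filter_upwards [e1, hfg x] with z hz1 hz2
      rw [hz1, hz2, hper ω hω z]
    exact tendsto_nhds_unique (h1.congr' h3) h2
  have hbdd : Bornology.IsBounded (Set.range g) :=
    (IsZLattice.isCompact_range_of_periodic L.lattice g hgD.continuous hgper).isBounded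
  refine ⟨g 0, fun x => ?_⟩
  filter_upwards [hfg x] with z hz
  rw [← hz]
  exact hgD.apply_eq_apply_of_bounded hbdd z 0

/-- the constant is the value at every point of continuity -/
lemma eq_of_eventuallyEq_nhdsNE {f : ℂ → ℂ} {c : ℂ} {x : ℂ} (h : f =ᶠ[𝓝[≠] x] fun _ => c)
    (hc : ContinuousAt f x) : f x = c := by
  have h1 : Tendsto f (𝓝[≠] x) (𝓝 (f x)) := hc.tendsto.mono_left nhdsWithin_le_nhds
  have h2 : Tendsto f (𝓝[≠] x) (𝓝 c) := (tendsto_const_nhds (x := c)).congr' h.symm
  exact tendsto_nhds_unique h1 h2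

/-- the constant is any punctured limit -/
lemma eq_of_eventuallyEq_nhdsNE_of_tendsto {f : ℂ → ℂ} {c c' : ℂ} {x : ℂ}
    (h : f =ᶠ[𝓝[≠] x] fun _ => c) (hc : Tendsto f (𝓝[≠] x) (𝓝 c')) : c' = c := by
  have h2 : Tendsto f (𝓝[≠] x) (𝓝 c) := (tendsto_const_nhds (x := c)).congr' h.symm
  exact tendsto_nhds_unique hc h2

/-- **`℘` takes every value.** -/
theorem exists_wp_eq (L : PeriodPair) (c : ℂ) : ∃ z, z ∉ L.lattice ∧ ℘[L] z = c := by
  by_contra hne
  have hne' : ∀ z, z ∉ L.lattice → ℘[L] z - c ≠ 0 := fun z hz h0 =>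
    hne ⟨z, hz, sub_eq_zero.mp h0⟩
  set f : ℂ → ℂ := fun z => (℘[L] z - c)⁻¹ with hf
  have hm : ∀ x, MeromorphicAt (fun z => ℘[L] z - c) x := fun x =>
    (L.meromorphic_weierstrassP x).sub (MeromorphicAt.const c x)
  have hfm : ∀ x, MeromorphicAt f x := fun x => (hm x).inv
  have hper : ∀ ω ∈ L.lattice, ∀ z, f (z + ω) = f z := by
    intro ω hω z
    show (℘[L] (z + ω) - c)⁻¹ = (℘[L] z - c)⁻¹
    rw [wp_add_mem hω]
  have hordL : ∀ x ∈ L.lattice, meromorphicOrderAt f x = 2 := by
    intro x hx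
    have h1 : meromorphicOrderAt (fun z => ℘[L] z - c) x = -2 := by
      have h2 : meromorphicOrderAt ℘[L] x < meromorphicOrderAt (fun _ : ℂ => -c) x := by
        rw [L.order_weierstrassP x hx]
        exact lt_of_lt_of_le (by decide) (analyticAt_const.meromorphicOrderAt_nonneg)
      have := meromorphicOrderAt_add_eq_left_of_lt (f₁ := ℘[L]) (f₂ := fun _ => -c)
        (MeromorphicAt.const (-c) x) h2
      rw [L.order_weierstrassP x hx] at this
      rw [← this]
      rfl
    have h3 : meromorphicOrderAt f x = -meromorphicOrderAt (fun z => ℘[L] z - c) x :=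
      meromorphicOrderAt_inv
    rw [h3, h1]
    rfl
  have hfA : ∀ x, x ∉ L.lattice → AnalyticAt ℂ f x := fun x hx =>
    ((analyticAt_wp hx).sub analyticAt_const).inv (hne' x hx)
  have hord : ∀ x, 0 ≤ meromorphicOrderAt f x := by
    intro x
    by_cases hx : x ∈ L.lattice
    · rw [hordL x hx]; decide
    · exact (hfA x hx).meromorphicOrderAt_nonneg
  obtain ⟨k, hk⟩ := exists_const_of_periodic L hfm hper hord
  -- the constant is `0` (limit at the lattice point `0`)
  have hk0 : (0 : ℂ) = k := by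
    apply eq_of_eventuallyEq_nhdsNE_of_tendsto (hk 0)
    apply tendsto_zero_of_meromorphicOrderAt_pos
    rw [hordL 0 L.lattice.zero_mem]
    decide
  -- but `f` does not vanish off the lattice
  have hz := L.ω₁_div_two_notMem_lattice
  have h1 := eq_of_eventuallyEq_nhdsNE (hk (L.ω₁ / 2)) (hfA _ hz).continuousAt
  rw [← hk0] at h1
  exact inv_ne_zero (hne' _ hz) h1

end Fermat.Agent.S15lib.Dict.EA

end
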