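/-
S15lib / Dict / EA / Half  (helper3) — Project E, block (DICT), sub-block (EA)(T).

Half-period triples `a : Fin 3 → ℂ` of a lattice (`a i ∉ L`, `2 a i ∈ L`, pairwise incongruent) and the
numbers `e i = ℘(a i)`: they are the three distinct roots of `4x³ − g₂x − g₃`, hence
`g₂³ − 27g₃² = 16 ∏(e i − e j)² ≠ 0`, `℘''(a i) = 6 e i² − g₂/2 ≠ 0` and `∏ ℘''(a i) = −(g₂³ − 27g₃²)/2`.
-/
import Fermat.Agent.S15lib.Dict.EA.Key

set_option autoImplicit false

noncomputable section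

open Filter Topology
open scoped PeriodPair

namespace Fermat.Agent.S15lib.Dict.EA

open Fermat.Agent.ProgramR.LevelOne

/-- the discriminant `g₂³ − 27 g₃²` of a lattice -/
def disc (L : PeriodPair) : ℂ := L.g₂ ^ 3 - 27 * L.g₃ ^ 2

/-- a triple of representatives of the three non-trivial classes of `(1/2)L / L` -/
structure IsHalfTriple (L : PeriodPair) (a : Fin 3 → ℂ) : Prop where
  notMem : ∀ i, a i ∉ L.lattice
  two_mul_mem : ∀ i, 2 * a i ∈ L.lattice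
  sub_notMem : ∀ i j, i ≠ j → a i - a j ∉ L.lattice

namespace IsHalfTriple

variable {L : PeriodPair} {a : Fin 3 → ℂ} (h : IsHalfTriple L a)

include h

lemma add_notMem (i j : Fin 3) (hij : i ≠ j) : a i + a j ∉ L.lattice := by
  intro hm
  apply h.sub_notMem i j hij
  have : a i - a j = a i + a j - 2 * a j := by ring
  rw [this]
  exact L.lattice.sub_mem hm (h.two_mul_mem j)

lemma dwp_eq_zero (i : Fin 3) : ℘'[L] (a i) = 0 :=
  (dwp_eq_zero_iff (h.notMem i)).2 (h.two_mul_mem i)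

lemma e_ne (i j : Fin 3) (hij : i ≠ j) : ℘[L] (a i) ≠ ℘[L] (a j) := by
  intro he
  rcases (wp_eq_iff (h.notMem i) (h.notMem j)).1 he with h1 | h1
  · exact h.sub_notMem i j hij h1
  · exact h.add_notMem i j hij h1

lemma cubic (i : Fin 3) : 4 * ℘[L] (a i) ^ 3 - L.g₂ * ℘[L] (a i) - L.g₃ = 0 := by
  have := L.derivWeierstrassP_sq (a i) (h.notMem i)
  rw [h.dwp_eq_zero i] at this
  linear_combination -this

lemma e_sum : ℘[L] (a 0) + ℘[L] (a 1) + ℘[L] (a 2) = 0 := by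
  have c0 := h.cubic 0
  have c1 := h.cubic 1
  have c2 := h.cubic 2
  have n01 : ℘[L] (a 0) - ℘[L] (a 1) ≠ 0 := sub_ne_zero.mpr (h.e_ne 0 1 (by decide))
  have n02 : ℘[L] (a 0) - ℘[L] (a 2) ≠ 0 := sub_ne_zero.mpr (h.e_ne 0 2 (by decide))
  have n12 : ℘[L] (a 1) - ℘[L] (a 2) ≠ 0 := sub_ne_zero.mpr (h.e_ne 1 2 (by decide))
  set e0 := ℘[L] (a 0)
  set e1 := ℘[L] (a 1)
  set e2 := ℘[L] (a 2)
  have k1 : 4 * (e0 ^ 2 + e0 * e1 + e1 ^ 2) - L.g₂ = 0 := by
    have : (e0 - e1) * (4 * (e0 ^ 2 + e0 * e1 + e1 ^ 2) - L.g₂) = 0 := by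
      linear_combination c0 - c1
    exact (mul_eq_zero.mp this).resolve_left n01
  have k2 : 4 * (e0 ^ 2 + e0 * e2 + e2 ^ 2) - L.g₂ = 0 := by
    have : (e0 - e2) * (4 * (e0 ^ 2 + e0 * e2 + e2 ^ 2) - L.g₂) = 0 := by
      linear_combination c0 - c2
    exact (mul_eq_zero.mp this).resolve_left n02
  have k3 : (e1 - e2) * (e0 + e1 + e2) = 0 := by linear_combination (1 / 4 : ℂ) * (k1 - k2)
  exact (mul_eq_zero.mp k3).resolve_left n12

lemma g₂_eq : L.g₂ = -4 * (℘[L] (a 0) * ℘[L] (a 1) + ℘[L] (a 0) * ℘[L] (a 2)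
    + ℘[L] (a 1) * ℘[L] (a 2)) := by
  have c0 := h.cubic 0
  have c1 := h.cubic 1
  have s := h.e_sum
  have n01 : ℘[L] (a 0) - ℘[L] (a 1) ≠ 0 := sub_ne_zero.mpr (h.e_ne 0 1 (by decide))
  set e0 := ℘[L] (a 0)
  set e1 := ℘[L] (a 1)
  set e2 := ℘[L] (a 2)
  have k1 : 4 * (e0 ^ 2 + e0 * e1 + e1 ^ 2) - L.g₂ = 0 := by
    have : (e0 - e1) * (4 * (e0 ^ 2 + e0 * e1 + e1 ^ 2) - L.g₂) = 0 := by
      linear_combination c0 - c1
    exact (mul_eq_zero.mp this).resolve_left n01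
  have e2eq : e2 = -e0 - e1 := by linear_combination s
  rw [e2eq]
  linear_combination -k1

lemma g₃_eq : L.g₃ = 4 * ℘[L] (a 0) * ℘[L] (a 1) * ℘[L] (a 2) := by
  have c0 := h.cubic 0
  have s := h.e_sum
  have g2 := h.g₂_eq
  set e0 := ℘[L] (a 0)
  set e1 := ℘[L] (a 1)
  set e2 := ℘[L] (a 2)
  have e2eq : e2 = -e0 - e1 := by linear_combination s
  rw [e2eq] at g2 ⊢
  rw [g2] at c0
  linear_combination -c0

lemma disc_eq : disc L = 16 * ((℘[L] (a 0) - ℘[L] (a 1)) * (℘[L] (a 0) - ℘[L] (a 2))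
    * (℘[L] (a 1) - ℘[L] (a 2))) ^ 2 := by
  have s := h.e_sum
  have g2 := h.g₂_eq
  have g3 := h.g₃_eq
  set e0 := ℘[L] (a 0)
  set e1 := ℘[L] (a 1)
  set e2 := ℘[L] (a 2)
  have e2eq : e2 = -e0 - e1 := by linear_combination s
  rw [disc, g2, g3, e2eq]
  ring

lemma disc_ne_zero : disc L ≠ 0 := by
  rw [h.disc_eq]
  have n01 : ℘[L] (a 0) - ℘[L] (a 1) ≠ 0 := sub_ne_zero.mpr (h.e_ne 0 1 (by decide))
  have n02 : ℘[L] (a 0) - ℘[L] (a 2) ≠ 0 := sub_ne_zero.mpr (h.e_ne 0 2 (by decide))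
  have n12 : ℘[L] (a 1) - ℘[L] (a 2) ≠ 0 := sub_ne_zero.mpr (h.e_ne 1 2 (by decide))
  exact mul_ne_zero (by norm_num) (pow_ne_zero 2 (mul_ne_zero (mul_ne_zero n01 n02) n12))

/-- `∏ ℘''(a i) = −disc/2` -/
lemma prod_wpPP : ∏ i : Fin 3, (6 * ℘[L] (a i) ^ 2 - L.g₂ / 2) = -disc L / 2 := by
  have s := h.e_sum
  have g2 := h.g₂_eq
  have g3 := h.g₃_eq
  rw [Fin.prod_univ_three]
  set e0 := ℘[L] (a 0)
  set e1 := ℘[L] (a 1)
  set e2 := ℘[L] (a 2)
  have e2eq : e2 = -e0 - e1 := by linear_combination s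
  rw [disc, g2, g3, e2eq]
  ring

lemma wpPP_ne_zero (i : Fin 3) : 6 * ℘[L] (a i) ^ 2 - L.g₂ / 2 ≠ 0 := by
  intro h0
  have := h.prod_wpPP
  rw [Finset.prod_eq_zero (Finset.mem_univ i) h0] at this
  have hd := h.disc_ne_zero
  apply hd
  linear_combination 2 * this

end IsHalfTriple

/-! ### the standard triple -/

/-- `ω₁/2, ω₂/2, (ω₁+ω₂)/2` -/
def stdHalf (L : PeriodPair) : Fin 3 → ℂ := ![L.ω₁ / 2, L.ω₂ / 2, (L.ω₁ + L.ω₂) / 2]

lemma notMem_of_rat (L : PeriodPair) (α β : ℚ) (hαβ : ¬ (α.den = 1 ∧ β.den = 1)) {x : ℂ}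
    (hx : x = α * L.ω₁ + β * L.ω₂) : x ∉ L.lattice := by
  rw [hx]
  exact fun hm => hαβ (PeriodPair.mul_ω₁_add_mul_ω₂_mem_lattice.mp hm)

lemma mem_of_int (L : PeriodPair) (m n : ℤ) {x : ℂ} (hx : x = m * L.ω₁ + n * L.ω₂) :
    x ∈ L.lattice := by
  rw [hx]
  exact PeriodPair.mem_lattice.mpr ⟨m, n, rfl⟩

theorem isHalfTriple_std (L : PeriodPair) : IsHalfTriple L (stdHalf L) where
  notMem := by
    intro i
    fin_cases i
    · exact notMem_of_rat L (1 / 2) 0 (by norm_num) (by simp [stdHalf]; ring)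
    · exact notMem_of_rat L 0 (1 / 2) (by norm_num) (by simp [stdHalf]; ring)
    · exact notMem_of_rat L (1 / 2) (1 / 2) (by norm_num) (by simp [stdHalf]; ring)
  two_mul_mem := by
    intro i
    fin_cases i
    · exact mem_of_int L 1 0 (by simp [stdHalf]; ring)
    · exact mem_of_int L 0 1 (by simp [stdHalf]; ring)
    · exact mem_of_int L 1 1 (by simp [stdHalf]; ring)
  sub_notMem := by
    intro i j hij
    fin_cases i <;> fin_cases j
    · exact absurd rfl hij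
    · exact notMem_of_rat L (1 / 2) (-1 / 2) (by norm_num) (by simp [stdHalf]; ring)
    · exact notMem_of_rat L 0 (-1 / 2) (by norm_num) (by simp [stdHalf]; ring)
    · exact notMem_of_rat L (-1 / 2) (1 / 2) (by norm_num) (by simp [stdHalf]; ring)
    · exact absurd rfl hij
    · exact notMem_of_rat L (-1 / 2) 0 (by norm_num) (by simp [stdHalf]; ring)
    · exact notMem_of_rat L 0 (1 / 2) (by norm_num) (by simp [stdHalf]; ring)
    · exact notMem_of_rat L (1 / 2) 0 (by norm_num) (by simp [stdHalf]; ring)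
    · exact absurd rfl hij

/-- **the discriminant of a lattice does not vanish** -/
theorem disc_ne_zero (L : PeriodPair) : disc L ≠ 0 := (isHalfTriple_std L).disc_ne_zero

end Fermat.Agent.S15lib.Dict.EA

end
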