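/-
S15lib / Dict / EA / Orders  (helper3) — Project E, block (DICT), sub-block (EA)(T).

Products of translates of `℘'` (for several lattices): a lower bound `ordLB` for the order of `℘'`,
and the resulting Liouville statement `exists_const_prod`: if the product is periodic and the
combinatorial lower bounds add up to `≥ 0` at every point, the product is constant.
-/
import Fermat.Agent.S15lib.Dict.EA.Liouville
import Fermat.Agent.S15lib.Dict.EA.Key

set_option autoImplicit false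

noncomputable section

open Filter Topology
open scoped PeriodPair

namespace Fermat.Agent.S15lib.Dict.EA

open Fermat.Agent.ProgramR.LevelOne

open Classical in
/-- a lower bound for the order of `℘'[L]` at `x` -/
def ordLB (L : PeriodPair) (x : ℂ) : ℤ :=
  if x ∈ L.lattice then -3 else if 2 * x ∈ L.lattice then 1 else 0

lemma ordLB_of_mem {L : PeriodPair} {x : ℂ} (hx : x ∈ L.lattice) : ordLB L x = -3 := by
  simp [ordLB, hx]

lemma ordLB_of_two_mul_mem {L : PeriodPair} {x : ℂ} (hx : x ∉ L.lattice)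
    (h2 : 2 * x ∈ L.lattice) : ordLB L x = 1 := by
  simp [ordLB, hx, h2]

lemma ordLB_nonneg_of_notMem {L : PeriodPair} {x : ℂ} (hx : x ∉ L.lattice) : 0 ≤ ordLB L x := by
  unfold ordLB
  rw [if_neg hx]
  split_ifs <;> norm_num

lemma one_le_meromorphicOrderAt_of_zero {f : ℂ → ℂ} {x : ℂ} (hf : AnalyticAt ℂ f x)
    (h0 : f x = 0) : (1 : WithTop ℤ) ≤ meromorphicOrderAt f x := by
  rw [hf.meromorphicOrderAt_eq]
  have hne : analyticOrderAt f x ≠ 0 := hf.analyticOrderAt_ne_zero.mpr h0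
  cases hn : analyticOrderAt f x with
  | top => simp
  | coe n =>
    rw [hn] at hne
    have hn0 : n ≠ 0 := by exact_mod_cast hne
    rw [ENat.map_coe]
    have : (1 : ℤ) ≤ (n : ℤ) := by exact_mod_cast Nat.one_le_iff_ne_zero.mpr hn0
    exact_mod_cast this

lemma ordLB_le (L : PeriodPair) (x : ℂ) :
    ((ordLB L x : ℤ) : WithTop ℤ) ≤ meromorphicOrderAt ℘'[L] x := by
  by_cases hx : x ∈ L.lattice
  · rw [ordLB_of_mem hx, order_dwp L hx]
  · by_cases h2 : 2 * x ∈ L.lattice
    · rw [ordLB_of_two_mul_mem hx h2]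
      exact one_le_meromorphicOrderAt_of_zero (analyticAt_dwp hx) ((dwp_eq_zero_iff hx).2 h2)
    · have : ordLB L x = 0 := by simp [ordLB, hx, h2]
      rw [this]
      exact (analyticAt_dwp hx).meromorphicOrderAt_nonneg

lemma meromorphicAt_dwp_translate (L : PeriodPair) (c x : ℂ) :
    MeromorphicAt (fun z => ℘'[L] (z + c)) x := by
  have h := L.meromorphic_derivWeierstrassP (x + c)
  exact (meromorphicAt_comp_add_const_iff_meromorphicAt (f := ℘'[L]) (c := c) (x := x)).2 h

lemma ordLB_le_translate (L : PeriodPair) (c x : ℂ) :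
    ((ordLB L (x + c) : ℤ) : WithTop ℤ) ≤ meromorphicOrderAt (fun z => ℘'[L] (z + c)) x := by
  have h := meromorphicOrderAt_comp_add_const_eq_meromorphicOrderAt (f := ℘'[L]) (c := c) (x := x)
  have h' : meromorphicOrderAt (fun z => ℘'[L] (z + c)) x = meromorphicOrderAt ℘'[L] (x + c) := h
  rw [h']
  exact ordLB_le L (x + c)

section Prod

variable {ι : Type*} (s : Finset ι) (Λ : ι → PeriodPair) (c : ι → ℂ)

/-- the product of the translates `℘'[Λ i](z + c i)` -/
def prodT (z : ℂ) : ℂ := ∏ i ∈ s, ℘'[Λ i] (z + c i)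

lemma meromorphicAt_prodT (x : ℂ) : MeromorphicAt (prodT s Λ c) x := by
  have : prodT s Λ c = fun z => ∏ i ∈ s, (fun w => ℘'[Λ i] (w + c i)) z := rfl
  rw [this]
  exact MeromorphicAt.fun_prod (fun i _ => meromorphicAt_dwp_translate (Λ i) (c i) x)

lemma sum_ordLB_le (x : ℂ) :
    (((∑ i ∈ s, ordLB (Λ i) (x + c i) : ℤ)) : WithTop ℤ) ≤ meromorphicOrderAt (prodT s Λ c) x := by
  have : prodT s Λ c = fun z => ∏ i ∈ s, (fun w => ℘'[Λ i] (w + c i)) z := rfl
  rw [this, meromorphicOrderAt_fun_prod (fun i _ => meromorphicAt_dwp_translate (Λ i) (c i) x)]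
  push_cast
  exact Finset.sum_le_sum (fun i _ => ordLB_le_translate (Λ i) (c i) x)

lemma analyticAt_prodT {x : ℂ} (hx : ∀ i ∈ s, x + c i ∉ (Λ i).lattice) :
    AnalyticAt ℂ (prodT s Λ c) x := by
  have : prodT s Λ c = fun z => ∏ i ∈ s, (fun w => ℘'[Λ i] (w + c i)) z := rfl
  rw [this]
  refine Finset.analyticAt_fun_prod _ (fun i hi => ?_)
  have h : AnalyticAt ℂ ℘'[Λ i] (x + c i) := analyticAt_dwp (hx i hi)
  exact h.comp_of_eq (by fun_prop) rfl

/-- **Liouville for products of translates of `℘'`** -/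
theorem exists_const_prodT (L₀ : PeriodPair)
    (hper : ∀ ω ∈ L₀.lattice, ∀ z, prodT s Λ c (z + ω) = prodT s Λ c z)
    (hcomb : ∀ x, 0 ≤ ∑ i ∈ s, ordLB (Λ i) (x + c i)) :
    ∃ k : ℂ, (∀ x, prodT s Λ c =ᶠ[𝓝[≠] x] fun _ => k) ∧
      ∀ x, (∀ i ∈ s, x + c i ∉ (Λ i).lattice) → prodT s Λ c x = k := by
  obtain ⟨k, hk⟩ := exists_const_of_periodic L₀ (meromorphicAt_prodT s Λ c) hper (fun x => by
    refine le_trans ?_ (sum_ordLB_le s Λ c x)
    exact_mod_cast hcomb x)
  exact ⟨k, hk, fun x hx => eq_of_eventuallyEq_nhdsNE (hk x) (analyticAt_prodT s Λ c hx).continuousAt⟩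

end Prod

end Fermat.Agent.S15lib.Dict.EA

end
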