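/-
S15lib / Dict / EA / Super  (helper3) — Project E, block (DICT), sub-block (EA)(V2).

Lattice combinatorics of an index-`p` superlattice `L' = L + ℤ z₀` (`p` an odd prime, `z₀ ∉ L`,
`p z₀ ∈ L`), and the two combinatorial inequalities for the lower bounds `ordLB`.
-/
import Fermat.Agent.S15lib.Dict.EA.Orders
import Fermat.Agent.S15lib.Dict.EA.Half

set_option autoImplicit false

noncomputable section

open Filter Topology
open scoped PeriodPair

namespace Fermat.Agent.S15lib.Dict.EA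

/-- `L' = L + ℤ z₀` is a superlattice of odd prime index `p`. -/
structure IsSuper (L L' : PeriodPair) (p : ℕ) (z₀ : ℂ) : Prop where
  prime : p.Prime
  odd : p ≠ 2
  notMem : z₀ ∉ L.lattice
  mul_mem : (p : ℂ) * z₀ ∈ L.lattice
  lattice_eq : L'.lattice = L.lattice ⊔ Submodule.span ℤ {z₀}

namespace IsSuper

variable {L L' : PeriodPair} {p : ℕ} {z₀ : ℂ} (h : IsSuper L L' p z₀)

include h

lemma le : L.lattice ≤ L'.lattice := by rw [h.lattice_eq]; exact le_sup_left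

lemma z₀_mem : z₀ ∈ L'.lattice := by
  rw [h.lattice_eq]
  exact Submodule.mem_sup_right (Submodule.mem_span_singleton_self z₀)

lemma mem_iff {x : ℂ} : x ∈ L'.lattice ↔ ∃ k : ℤ, x - k * z₀ ∈ L.lattice := by
  rw [h.lattice_eq, Submodule.mem_sup]
  constructor
  · rintro ⟨y, hy, z, hz, rfl⟩
    obtain ⟨n, rfl⟩ := Submodule.mem_span_singleton.1 hz
    refine ⟨n, ?_⟩
    have : y + n • z₀ - (n : ℂ) * z₀ = y := by rw [zsmul_eq_mul]; ring
    rwa [this]
  · rintro ⟨k, hk⟩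
    refine ⟨x - k * z₀, hk, k • z₀, Submodule.mem_span_singleton.2 ⟨k, rfl⟩, ?_⟩
    rw [zsmul_eq_mul]; ring

lemma int_mul_mem_iff (k : ℤ) : (k : ℂ) * z₀ ∈ L.lattice ↔ (p : ℤ) ∣ k := by
  constructor
  · intro hk
    by_contra hnd
    have hirr : Irreducible (p : ℤ) := (Nat.prime_iff_prime_int.mp h.prime).irreducible
    obtain ⟨u, v, huv⟩ := (hirr.coprime_iff_not_dvd).2 hnd
    apply h.notMem
    have e : z₀ = u • ((p : ℂ) * z₀) + v • ((k : ℂ) * z₀) := by
      rw [zsmul_eq_mul, zsmul_eq_mul]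
      have := congrArg (fun t : ℤ => (t : ℂ)) huv
      push_cast at this
      linear_combination (-z₀) * this
    rw [e]
    exact L.lattice.add_mem (L.lattice.smul_mem u h.mul_mem) (L.lattice.smul_mem v hk)
  · rintro ⟨m, rfl⟩
    have e : ((p * m : ℤ) : ℂ) * z₀ = m • ((p : ℂ) * z₀) := by
      rw [zsmul_eq_mul]; push_cast; ring
    rw [e]
    exact L.lattice.smul_mem m h.mul_mem

lemma nat_mul_notMem {k : ℕ} (hk : ¬ p ∣ k) : (k : ℂ) * z₀ ∉ L.lattice := by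
  intro hm
  have := (h.int_mul_mem_iff (k : ℤ)).1 (by exact_mod_cast hm)
  exact hk (by exact_mod_cast this)

lemma nat_mul_notMem_of_lt {k : ℕ} (h0 : 0 < k) (hk : k < p) : (k : ℂ) * z₀ ∉ L.lattice :=
  h.nat_mul_notMem (Nat.not_dvd_of_pos_of_lt h0 hk)

lemma exists_nat_lt {x : ℂ} (hx : x ∈ L'.lattice) : ∃ k : ℕ, k < p ∧ x + k * z₀ ∈ L.lattice := by
  obtain ⟨n, hn⟩ := h.mem_iff.1 hx
  have hp0 : (p : ℤ) ≠ 0 := by exact_mod_cast h.prime.ne_zero
  have hppos : (0 : ℤ) < p := by exact_mod_cast h.prime.pos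
  set k : ℤ := (-n) % p with hk
  have hk0 : 0 ≤ k := Int.emod_nonneg _ hp0
  have hkp : k < p := Int.emod_lt_of_pos _ hppos
  have hdiv : (p : ℤ) ∣ n + k := by
    have h1 : (p : ℤ) ∣ (-n) - (-n) % p := (Int.mod_modEq (-n) p).dvd
    have h2 : n + k = -((-n) - (-n) % p) := by rw [hk]; ring
    rw [h2]
    exact (dvd_neg).2 h1
  refine ⟨k.toNat, ?_, ?_⟩
  · have : (k.toNat : ℤ) < p := by rw [Int.toNat_of_nonneg hk0]; exact hkp
    exact_mod_cast this
  · have hc : ((k.toNat : ℕ) : ℂ) = (k : ℂ) := by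
      have : ((k.toNat : ℕ) : ℤ) = k := Int.toNat_of_nonneg hk0
      exact_mod_cast congrArg (fun t : ℤ => (t : ℂ)) this
    rw [hc]
    have e : x + (k : ℂ) * z₀ = (x - n * z₀) + ((n + k : ℤ) : ℂ) * z₀ := by push_cast; ring
    rw [e]
    exact L.lattice.add_mem hn ((h.int_mul_mem_iff _).2 hdiv)

lemma eq_of_lt {x : ℂ} {k k' : ℕ} (hk : k < p) (hk' : k' < p) (h1 : x + k * z₀ ∈ L.lattice)
    (h2 : x + k' * z₀ ∈ L.lattice) : k = k' := by
  have h3 : (((k : ℤ) - k' : ℤ) : ℂ) * z₀ ∈ L.lattice := by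
    have e : (((k : ℤ) - k' : ℤ) : ℂ) * z₀ = (x + k * z₀) - (x + k' * z₀) := by push_cast; ring
    rw [e]
    exact L.lattice.sub_mem h1 h2
  have h4 := (h.int_mul_mem_iff _).1 h3
  have h5 : ((k : ℤ) - k') = 0 := by
    apply Int.eq_zero_of_abs_lt_dvd h4
    rw [abs_lt]
    constructor <;> omega
  omega

lemma notMem_add {x : ℂ} (hx : x ∉ L'.lattice) (k : ℕ) : x + k * z₀ ∉ L.lattice := by
  intro hm
  apply hx
  have e : x = (x + k * z₀) - (k : ℤ) • z₀ := by rw [zsmul_eq_mul]; push_cast; ring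
  rw [e]
  exact L'.lattice.sub_mem (h.le hm) (L'.lattice.smul_mem _ h.z₀_mem)

lemma mul_mem_of_mem {x : ℂ} (hx : x ∈ L'.lattice) : (p : ℂ) * x ∈ L.lattice := by
  obtain ⟨n, hn⟩ := h.mem_iff.1 hx
  have e : (p : ℂ) * x = (p : ℤ) • (x - n * z₀) + n • ((p : ℂ) * z₀) := by
    rw [zsmul_eq_mul, zsmul_eq_mul]; push_cast; ring
  rw [e]
  exact L.lattice.add_mem (L.lattice.smul_mem _ hn) (L.lattice.smul_mem _ h.mul_mem)

lemma mem_of_two_mul_mem {x : ℂ} (h2 : 2 * x ∈ L.lattice) (hx : x ∈ L'.lattice) :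
    x ∈ L.lattice := by
  obtain ⟨m, hm⟩ : ∃ m : ℕ, p = 2 * m + 1 := by
    rcases h.prime.eq_two_or_odd with h2 | hodd
    · exact absurd h2 h.odd
    · exact ⟨p / 2, by omega⟩
  have hp := h.mul_mem_of_mem hx
  have e : x = (p : ℂ) * x - (m : ℤ) • (2 * x) := by
    rw [zsmul_eq_mul, hm]; push_cast; ring
  rw [e]
  exact L.lattice.sub_mem hp (L.lattice.smul_mem _ h2)

lemma isHalfTriple {a : Fin 3 → ℂ} (ha : IsHalfTriple L a) : IsHalfTriple L' a where
  notMem i hm := ha.notMem i (h.mem_of_two_mul_mem (ha.two_mul_mem i) hm)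
  two_mul_mem i := h.le (ha.two_mul_mem i)
  sub_notMem i j hij hm := by
    apply ha.sub_notMem i j hij
    apply h.mem_of_two_mul_mem _ hm
    have e : 2 * (a i - a j) = 2 * a i - 2 * a j := by ring
    rw [e]
    exact L.lattice.sub_mem (ha.two_mul_mem i) (ha.two_mul_mem j)

lemma exists_two_mul {x : ℂ} (hx : 2 * x ∈ L'.lattice) :
    ∃ k : ℕ, k < p ∧ 2 * (x + k * z₀) ∈ L.lattice := by
  obtain ⟨j, -, hj⟩ := h.exists_nat_lt hx
  obtain ⟨m, hm⟩ : ∃ m : ℕ, p = 2 * m + 1 := by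
    rcases h.prime.eq_two_or_odd with h2 | hodd
    · exact absurd h2 h.odd
    · exact ⟨p / 2, by omega⟩
  obtain ⟨r, hr, hdiv⟩ : ∃ r : ℕ, r < p ∧ (p : ℤ) ∣ 2 * (r : ℤ) - j := by
    refine ⟨(j * (m + 1)) % p, Nat.mod_lt _ h.prime.pos, ?_⟩
    have h2 : (((j * (m + 1)) % p : ℕ) : ℤ) = (j : ℤ) * (m + 1) - p * (((j * (m + 1)) / p : ℕ) : ℤ) := by
      have := Nat.mod_add_div (j * (m + 1)) p
      have h3 : (((j * (m + 1)) % p : ℕ) : ℤ) + p * (((j * (m + 1)) / p : ℕ) : ℤ)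
          = (j : ℤ) * (m + 1) := by exact_mod_cast this
      linarith
    rw [h2]
    refine ⟨(j : ℤ) - 2 * (((j * (m + 1)) / p : ℕ) : ℤ), ?_⟩
    have hp' : (p : ℤ) = 2 * m + 1 := by exact_mod_cast hm
    rw [hp']
    ring
  refine ⟨r, hr, ?_⟩
  have e : 2 * (x + (r : ℂ) * z₀) = (2 * x + j * z₀) + ((2 * (r : ℤ) - j : ℤ) : ℂ) * z₀ := by
    push_cast; ring
  rw [e]
  exact L.lattice.add_mem hj ((h.int_mul_mem_iff _).2 hdiv)

/-- **(Comb-A)**: `∏_{k<p} ℘'_L(z + k z₀)` has at least the poles and zeros of `℘'_{L'}`. -/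
lemma ordLB_le_sum (x : ℂ) :
    ordLB L' x ≤ ∑ k ∈ Finset.range p, ordLB L (x + k * z₀) := by
  by_cases hx : x ∈ L'.lattice
  · rw [ordLB_of_mem hx]
    obtain ⟨k₀, hk₀, hmem⟩ := h.exists_nat_lt hx
    rw [← Finset.add_sum_erase _ _ (Finset.mem_range.2 hk₀), ordLB_of_mem hmem]
    have : 0 ≤ ∑ k ∈ (Finset.range p).erase k₀, ordLB L (x + k * z₀) := by
      apply Finset.sum_nonneg
      intro k hk
      apply ordLB_nonneg_of_notMem
      intro hm
      exact (Finset.mem_erase.1 hk).1 (h.eq_of_lt (Finset.mem_range.1 (Finset.mem_erase.1 hk).2) hk₀ hm hmem)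
    linarith
  · have hnn : ∀ k ∈ Finset.range p, 0 ≤ ordLB L (x + k * z₀) := fun k _ =>
      ordLB_nonneg_of_notMem (h.notMem_add hx k)
    by_cases h2 : 2 * x ∈ L'.lattice
    · rw [ordLB_of_two_mul_mem hx h2]
      obtain ⟨k₁, hk₁, hmem⟩ := h.exists_two_mul h2
      rw [← Finset.add_sum_erase _ _ (Finset.mem_range.2 hk₁),
        ordLB_of_two_mul_mem (h.notMem_add hx k₁) hmem]
      have : 0 ≤ ∑ k ∈ (Finset.range p).erase k₁, ordLB L (x + k * z₀) :=
        Finset.sum_nonneg (fun k hk => hnn k (Finset.mem_erase.1 hk).2)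
      linarith
    · have : ordLB L' x = 0 := by simp [ordLB, hx, h2]
      rw [this]
      exact Finset.sum_nonneg hnn

end IsSuper

/-- **(Comb-B)**: `℘'(z) ∏ ℘'(z + a i)` has no poles. -/
lemma IsHalfTriple.ordLB_sum_nonneg {Λ : PeriodPair} {a : Fin 3 → ℂ} (ha : IsHalfTriple Λ a)
    (x : ℂ) : 0 ≤ ordLB Λ x + ∑ i, ordLB Λ (x + a i) := by
  have h2a : ∀ i, 2 * x ∈ Λ.lattice → 2 * (x + a i) ∈ Λ.lattice := by
    intro i hx
    have e : 2 * (x + a i) = 2 * x + 2 * a i := by ring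
    rw [e]
    exact Λ.lattice.add_mem hx (ha.two_mul_mem i)
  by_cases hx : x ∈ Λ.lattice
  · have h2x : 2 * x ∈ Λ.lattice := by
      have e : 2 * x = x + x := by ring
      rw [e]; exact Λ.lattice.add_mem hx hx
    rw [ordLB_of_mem hx]
    have : ∀ i, ordLB Λ (x + a i) = 1 := by
      intro i
      apply ordLB_of_two_mul_mem _ (h2a i h2x)
      intro hm
      apply ha.notMem i
      have e : a i = (x + a i) - x := by ring
      rw [e]; exact Λ.lattice.sub_mem hm hx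
    simp [this]
  · by_cases hex : ∃ i₀, x + a i₀ ∈ Λ.lattice
    · obtain ⟨i₀, hi₀⟩ := hex
      have h2x : 2 * x ∈ Λ.lattice := by
        have e : 2 * x = (x + a i₀) + (x + a i₀) - 2 * a i₀ := by ring
        rw [e]
        exact Λ.lattice.sub_mem (Λ.lattice.add_mem hi₀ hi₀) (ha.two_mul_mem i₀)
      rw [ordLB_of_two_mul_mem hx h2x, ← Finset.add_sum_erase _ _ (Finset.mem_univ i₀),
        ordLB_of_mem hi₀]
      have : ∀ i ∈ (Finset.univ : Finset (Fin 3)).erase i₀, ordLB Λ (x + a i) = 1 := by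
        intro i hi
        apply ordLB_of_two_mul_mem _ (h2a i h2x)
        intro hm
        apply ha.sub_notMem i i₀ (Finset.mem_erase.1 hi).1
        have e : a i - a i₀ = (x + a i) - (x + a i₀) := by ring
        rw [e]; exact Λ.lattice.sub_mem hm hi₀
      rw [Finset.sum_congr rfl this, Finset.sum_const, Finset.card_erase_of_mem (Finset.mem_univ _)]
      simp
    · push_neg at hex
      have h1 := ordLB_nonneg_of_notMem hx
      have h3 : 0 ≤ ∑ i, ordLB Λ (x + a i) :=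
        Finset.sum_nonneg (fun i _ => ordLB_nonneg_of_notMem (hex i))
      linarith

end Fermat.Agent.S15lib.Dict.EA

end
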