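/-
S15lib / Dict / EA / HalfProd  (helper3) — Project E, block (DICT), sub-block (EA)(V2).

**`℘'(w) ∏_i ℘'(w + a i) = g₂³ − 27 g₃²`** for a half-period triple `a` (Liouville + the limit at `0`).
-/
import Fermat.Agent.S15lib.Dict.EA.Super

set_option autoImplicit false

noncomputable section

open Filter Topology
open scoped PeriodPair

namespace Fermat.Agent.S15lib.Dict.EA

open Fermat.Agent.ProgramR.LevelOne

/-- `z³ ℘'(z) → −2` -/
lemma tendsto_cube_mul_dwp (L : PeriodPair) :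
    Tendsto (fun z => z ^ 3 * ℘'[L] z) (𝓝[≠] (0 : ℂ)) (𝓝 (-2)) := by
  have h1 : Tendsto (wpQ L) (𝓝[≠] (0 : ℂ)) (𝓝 (-2)) := by
    have := (analyticAt_wpQ L).continuousAt.tendsto
    rw [wpQ_zero] at this
    exact this.mono_left nhdsWithin_le_nhds
  refine h1.congr' ?_
  filter_upwards [self_mem_nhdsWithin] with z hz
  exact wpQ_eq L hz

/-- `℘'(z + a)/z → ℘''(a)` at a zero `a` of `℘'` -/
lemma tendsto_inv_mul_dwp {L : PeriodPair} {a : ℂ} (ha : a ∉ L.lattice) (h0 : ℘'[L] a = 0) :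
    Tendsto (fun z => z⁻¹ * ℘'[L] (z + a)) (𝓝[≠] (0 : ℂ)) (𝓝 (6 * ℘[L] a ^ 2 - L.g₂ / 2)) := by
  have := (hasDerivAt_dwp L ha).tendsto_slope_zero
  refine this.congr (fun z => ?_)
  rw [h0, sub_zero, smul_eq_mul, add_comm]

variable {Λ : PeriodPair} {a : Fin 3 → ℂ}

/-- the translations `0, a 0, a 1, a 2` -/
def optC (a : Fin 3 → ℂ) : Option (Fin 3) → ℂ := fun o => o.elim 0 a

/-- `H(z) = ℘'(z) ∏_i ℘'(z + a i)` -/
def halfProd (Λ : PeriodPair) (a : Fin 3 → ℂ) : ℂ → ℂ :=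
  prodT (Finset.univ : Finset (Option (Fin 3))) (fun _ => Λ) (optC a)

lemma halfProd_apply (z : ℂ) : halfProd Λ a z = ℘'[Λ] z * ∏ i, ℘'[Λ] (z + a i) := by
  simp [halfProd, prodT, Fintype.prod_option, optC]

/-- **Claim (B)** -/
theorem IsHalfTriple.halfProd_eq (ha : IsHalfTriple Λ a) :
    (∀ x, halfProd Λ a =ᶠ[𝓝[≠] x] fun _ => disc Λ) ∧
      ∀ w, w ∉ Λ.lattice → (∀ i, w + a i ∉ Λ.lattice) →
        ℘'[Λ] w * ∏ i, ℘'[Λ] (w + a i) = disc Λ := by
  obtain ⟨k, hk1, hk2⟩ := exists_const_prodT (Finset.univ : Finset (Option (Fin 3)))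
    (fun _ => Λ) (optC a) Λ
    (by
      intro ω hω z
      unfold prodT
      refine Finset.prod_congr rfl (fun o _ => ?_)
      have e : z + ω + optC a o = (z + optC a o) + ω := by ring
      rw [e, dwp_add_mem hω])
    (by
      intro x
      rw [Fintype.sum_option]
      simpa [optC] using ha.ordLB_sum_nonneg x)
  -- the constant
  have hlim : Tendsto (halfProd Λ a) (𝓝[≠] (0 : ℂ))
      (𝓝 (-2 * ∏ i, (6 * ℘[Λ] (a i) ^ 2 - Λ.g₂ / 2))) := by
    have h1 := tendsto_cube_mul_dwp Λ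
    have h2 : Tendsto (fun z => ∏ i, (z⁻¹ * ℘'[Λ] (z + a i))) (𝓝[≠] (0 : ℂ))
        (𝓝 (∏ i, (6 * ℘[Λ] (a i) ^ 2 - Λ.g₂ / 2))) :=
      tendsto_finset_prod _ (fun i _ => tendsto_inv_mul_dwp (ha.notMem i) (ha.dwp_eq_zero i))
    refine (h1.mul h2).congr' ?_
    filter_upwards [self_mem_nhdsWithin] with z hz
    have hz0 : z ≠ 0 := hz
    rw [halfProd_apply, Finset.prod_mul_distrib, Finset.prod_const, Finset.card_univ,
      Fintype.card_fin]
    field_simp
  have hkd : k = disc Λ := by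
    have := eq_of_eventuallyEq_nhdsNE_of_tendsto (hk1 0) hlim
    rw [← this, ha.prod_wpPP]
    ring
  subst hkd
  refine ⟨hk1, fun w hw hwa => ?_⟩
  rw [← halfProd_apply]
  apply hk2
  intro o _
  cases o with
  | none => simpa [optC] using hw
  | some i => simpa [optC] using hwa i

end Fermat.Agent.S15lib.Dict.EA

end
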