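/-
S15lib / Dict / EA / Velu  (helper3) — Project E, block (DICT), sub-block (EA)(V2).

For a superlattice `L' = L + ℤ z₀` of odd prime index `p`:
  `(g₂(L')³ − 27 g₃(L')²) · (∏_{k=1}^{p−1} ℘'_L(k z₀))⁴ = (g₂(L)³ − 27 g₃(L)²)^p`.
-/
import Fermat.Agent.S15lib.Dict.EA.HalfProd

set_option autoImplicit false

noncomputable section

open Filter Topology
open scoped PeriodPair

namespace Fermat.Agent.S15lib.Dict.EA

open Fermat.Agent.ProgramR.LevelOne

/-- the additive group of periods of a function -/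
def periods (f : ℂ → ℂ) : AddSubgroup ℂ where
  carrier := {ω | ∀ z, f (z + ω) = f z}
  zero_mem' := fun z => by rw [add_zero]
  add_mem' := fun {a b} ha hb z => by rw [← add_assoc, hb, ha]
  neg_mem' := fun {a} ha z => by
    have := ha (z + -a)
    rw [neg_add_cancel_right] at this
    exact this.symm

lemma mem_periods {f : ℂ → ℂ} {ω : ℂ} : ω ∈ periods f ↔ ∀ z, f (z + ω) = f z := Iff.rfl

/-- `F(z) = ∏_{k<p} ℘'_L(z + k z₀)` -/
def normF (L : PeriodPair) (p : ℕ) (z₀ : ℂ) (z : ℂ) : ℂ :=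
  ∏ k ∈ Finset.range p, ℘'[L] (z + k * z₀)

/-- `R(z) = ∏_{k<n} ℘'_L(z + (k+1) z₀)` -/
def normR (L : PeriodPair) (n : ℕ) (z₀ : ℂ) (z : ℂ) : ℂ :=
  ∏ k ∈ Finset.range n, ℘'[L] (z + ((k + 1 : ℕ) : ℂ) * z₀)

lemma normF_succ (L : PeriodPair) (n : ℕ) (z₀ z : ℂ) :
    normF L (n + 1) z₀ z = ℘'[L] z * normR L n z₀ z := by
  unfold normF normR
  rw [Finset.prod_range_succ', mul_comm]
  simp

lemma analyticAt_normR {L : PeriodPair} {n : ℕ} {z₀ x : ℂ}
    (hx : ∀ k < n, x + ((k + 1 : ℕ) : ℂ) * z₀ ∉ L.lattice) : AnalyticAt ℂ (normR L n z₀) x :=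
  analyticAt_prodT (Finset.range n) (fun _ => L) (fun k => ((k + 1 : ℕ) : ℂ) * z₀)
    (fun k hk => hx k (Finset.mem_range.1 hk))

namespace IsSuper

variable {L L' : PeriodPair} {p : ℕ} {z₀ : ℂ} (h : IsSuper L L' p z₀)

include h

lemma le_periods_normF : L'.lattice.toAddSubgroup ≤ periods (normF L p z₀) := by
  have hL : ∀ y ∈ L.lattice, y ∈ periods (normF L p z₀) := by
    intro y hy z
    unfold normF
    refine Finset.prod_congr rfl (fun k _ => ?_)
    have e : z + y + k * z₀ = (z + k * z₀) + y := by ring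
    rw [e, dwp_add_mem hy]
  have hz₀ : z₀ ∈ periods (normF L p z₀) := by
    intro z
    obtain ⟨n, rfl⟩ : ∃ n, p = n + 1 := ⟨p - 1, by have := h.prime.pos; omega⟩
    unfold normF
    have e : ∀ k : ℕ, z + z₀ + k * z₀ = z + ((k + 1 : ℕ) : ℂ) * z₀ := fun k => by push_cast; ring
    simp_rw [e]
    rw [Finset.prod_range_succ (fun k => ℘'[L] (z + ((k + 1 : ℕ) : ℂ) * z₀)),
      Finset.prod_range_succ' (fun k => ℘'[L] (z + (k : ℂ) * z₀))]
    congr 1
    have e2 : z + ((n + 1 : ℕ) : ℂ) * z₀ = z + ((0 : ℕ) : ℂ) * z₀ + ((n + 1 : ℕ) : ℂ) * z₀ := by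
      push_cast; ring
    rw [e2, dwp_add_mem h.mul_mem]
  intro ω hω
  obtain ⟨n, hn⟩ := h.mem_iff.1 hω
  have e : ω = (ω - n * z₀) + n • z₀ := by rw [zsmul_eq_mul]; ring
  rw [e]
  exact (periods _).add_mem (hL _ hn) ((periods _).zsmul_mem hz₀ n)

lemma normF_add_mem {ω : ℂ} (hω : ω ∈ L'.lattice) (z : ℂ) :
    normF L p z₀ (z + ω) = normF L p z₀ z := h.le_periods_normF hω z

/-- the index set, lattices and translations of `H_A(z) = F(z) ∏_i ℘'_{L'}(z + a i)` -/
def sA (p : ℕ) : Finset (ℕ ⊕ Fin 3) := (Finset.range p).disjSum Finset.univ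

def lamA (L L' : PeriodPair) : ℕ ⊕ Fin 3 → PeriodPair := Sum.elim (fun _ => L) (fun _ => L')

def cA (z₀ : ℂ) (a : Fin 3 → ℂ) : ℕ ⊕ Fin 3 → ℂ := Sum.elim (fun k => (k : ℂ) * z₀) a

omit h in
lemma prodT_A (a : Fin 3 → ℂ) (z : ℂ) :
    prodT (sA p) (lamA L L') (cA z₀ a) z = normF L p z₀ z * ∏ i, ℘'[L'] (z + a i) := by
  unfold prodT sA normF
  rw [Finset.prod_disjSum]
  rfl

/-- **Claim (A)**: `F(z) ∏_i ℘'_{L'}(z + a i) = P · disc L'`. -/
theorem prodA_eq {a : Fin 3 → ℂ} (ha : IsHalfTriple L a) :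
    ∀ z, z ∉ L'.lattice → (∀ i, z + a i ∉ L'.lattice) →
      normF L p z₀ z * ∏ i, ℘'[L'] (z + a i) = normR L (p - 1) z₀ 0 * disc L' := by
  have ha' : IsHalfTriple L' a := h.isHalfTriple ha
  obtain ⟨n, hn⟩ : ∃ n, p = n + 1 := ⟨p - 1, by have := h.prime.pos; omega⟩
  obtain ⟨k, hk1, hk2⟩ := exists_const_prodT (sA p) (lamA L L') (cA z₀ a) L'
    (by
      intro ω hω z
      rw [prodT_A, prodT_A, h.normF_add_mem hω]
      congr 1
      refine Finset.prod_congr rfl (fun i _ => ?_)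
      have e : z + ω + a i = (z + a i) + ω := by ring
      rw [e, dwp_add_mem hω])
    (by
      intro x
      unfold sA
      rw [Finset.sum_disjSum]
      have h1 := h.ordLB_le_sum x
      have h2 := ha'.ordLB_sum_nonneg x
      simp only [lamA, cA, Sum.elim_inl, Sum.elim_inr]
      linarith)
  -- the constant
  have hlim : Tendsto (prodT (sA p) (lamA L L') (cA z₀ a)) (𝓝[≠] (0 : ℂ))
      (𝓝 (-2 * normR L n z₀ 0 * ∏ i, (6 * ℘[L'] (a i) ^ 2 - L'.g₂ / 2))) := by
    have h1 := tendsto_cube_mul_dwp L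
    have h2 : Tendsto (fun z => ∏ i, (z⁻¹ * ℘'[L'] (z + a i))) (𝓝[≠] (0 : ℂ))
        (𝓝 (∏ i, (6 * ℘[L'] (a i) ^ 2 - L'.g₂ / 2))) :=
      tendsto_finset_prod _ (fun i _ => tendsto_inv_mul_dwp (ha'.notMem i) (ha'.dwp_eq_zero i))
    have h3 : Tendsto (normR L n z₀) (𝓝[≠] (0 : ℂ)) (𝓝 (normR L n z₀ 0)) := by
      have hc : ContinuousAt (normR L n z₀) 0 := by
        refine (analyticAt_normR (fun k hk => ?_)).continuousAt
        have hk' : k + 1 < p := by omega
        rw [zero_add]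
        exact h.nat_mul_notMem_of_lt (Nat.succ_pos k) hk'
      exact hc.tendsto.mono_left nhdsWithin_le_nhds
    refine ((h1.mul h3).mul h2).congr' ?_
    filter_upwards [self_mem_nhdsWithin] with z hz
    have hz0 : z ≠ 0 := hz
    rw [prodT_A, hn, normF_succ, Finset.prod_mul_distrib, Finset.prod_const, Finset.card_univ,
      Fintype.card_fin]
    field_simp
  have hkd : k = normR L (p - 1) z₀ 0 * disc L' := by
    have := eq_of_eventuallyEq_nhdsNE_of_tendsto (hk1 0) hlim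
    have hn' : p - 1 = n := by omega
    rw [← this, ha'.prod_wpPP, hn']
    ring
  intro z hz hza
  rw [← prodT_A, ← hkd]
  apply hk2
  intro o ho
  cases o with
  | inl k =>
    simp only [lamA, cA, Sum.elim_inl]
    exact h.notMem_add hz k
  | inr i =>
    simp only [lamA, cA, Sum.elim_inr]
    exact hza i

/-- **Claim (A)**, final form: `∏_{k<p} ℘'_L(z + k z₀) = P · ℘'_{L'}(z)`. -/
theorem normF_eq {a : Fin 3 → ℂ} (ha : IsHalfTriple L a) :
    ∀ z, z ∉ L'.lattice → (∀ i, z + a i ∉ L'.lattice) →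
      normF L p z₀ z = normR L (p - 1) z₀ 0 * ℘'[L'] z := by
  intro z hz hza
  have ha' : IsHalfTriple L' a := h.isHalfTriple ha
  have h1 := h.prodA_eq ha z hz hza
  have h2 := (ha'.halfProd_eq).2 z hz hza
  have hd : disc L' ≠ 0 := ha'.disc_ne_zero
  have h3 : normF L p z₀ z * disc L' = normR L (p - 1) z₀ 0 * ℘'[L'] z * disc L' := by
    linear_combination (-(normF L p z₀ z)) * h2 + (℘'[L'] z) * h1
  exact mul_right_cancel₀ hd h3

/-- **Claim (C)**: the derivative of Claim (A) at a half period. -/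
theorem wpPP_mul_normR {a : Fin 3 → ℂ} (ha : IsHalfTriple L a) (j : Fin 3) :
    (6 * ℘[L] (a j) ^ 2 - L.g₂ / 2) * normR L (p - 1) z₀ (a j) =
      normR L (p - 1) z₀ 0 * (6 * ℘[L'] (a j) ^ 2 - L'.g₂ / 2) := by
  have ha' : IsHalfTriple L' a := h.isHalfTriple ha
  obtain ⟨n, hn⟩ : ∃ n, p = n + 1 := ⟨p - 1, by have := h.prime.pos; omega⟩
  have hn' : p - 1 = n := by omega
  rw [hn']
  set P : ℂ := normR L n z₀ 0 with hP
  -- analyticity at `a j`
  have hRA : AnalyticAt ℂ (normR L n z₀) (a j) :=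
    analyticAt_normR (fun k _ => h.notMem_add (ha'.notMem j) (k + 1))
  have hfD : HasDerivAt ℘'[L] (6 * ℘[L] (a j) ^ 2 - L.g₂ / 2) (a j) := hasDerivAt_dwp L (ha.notMem j)
  have hGD : HasDerivAt ℘'[L'] (6 * ℘[L'] (a j) ^ 2 - L'.g₂ / 2) (a j) :=
    hasDerivAt_dwp L' (ha'.notMem j)
  have hFD : HasDerivAt (fun z => ℘'[L] z * normR L n z₀ z)
      ((6 * ℘[L] (a j) ^ 2 - L.g₂ / 2) * normR L n z₀ (a j)
        + ℘'[L] (a j) * deriv (normR L n z₀) (a j)) (a j) :=
    hfD.mul hRA.differentiableAt.hasDerivAt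
  rw [ha.dwp_eq_zero j, zero_mul, add_zero] at hFD
  -- the difference vanishes near `a j`
  set D : ℂ → ℂ := fun z => ℘'[L] z * normR L n z₀ z - P * ℘'[L'] z with hD
  have hDD : HasDerivAt D ((6 * ℘[L] (a j) ^ 2 - L.g₂ / 2) * normR L n z₀ (a j)
      - P * (6 * ℘[L'] (a j) ^ 2 - L'.g₂ / 2)) (a j) := hFD.sub (hGD.const_mul P)
  have hDA : AnalyticAt ℂ D (a j) :=
    ((analyticAt_dwp (ha.notMem j)).mul hRA).sub (analyticAt_const.mul (analyticAt_dwp (ha'.notMem j)))
  have hev : ∀ᶠ z in 𝓝[≠] (a j), D z = 0 := by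
    have e1 : ∀ᶠ z in 𝓝 (a j), z ∉ L'.lattice :=
      L'.isClosed_lattice.isOpen_compl.mem_nhds (ha'.notMem j)
    have e2 : ∀ i, i ≠ j → ∀ᶠ z in 𝓝 (a j), z + a i ∉ L'.lattice := by
      intro i hij
      have hcont : ContinuousAt (fun z : ℂ => z + a i) (a j) :=
        (continuous_id.add continuous_const).continuousAt
      have hopen : ((L'.lattice : Set ℂ)ᶜ) ∈ 𝓝 (a j + a i) :=
        L'.isClosed_lattice.isOpen_compl.mem_nhds (ha'.add_notMem j i (Ne.symm hij))
      exact hcont.preimage_mem_nhds hopen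
    have e3 : ∀ᶠ z in 𝓝 (a j), z + a j ∈ ((L'.lattice : Set ℂ) \ {a j + a j})ᶜ := by
      have hcont : ContinuousAt (fun z : ℂ => z + a j) (a j) :=
        (continuous_id.add continuous_const).continuousAt
      exact hcont.preimage_mem_nhds (L'.compl_lattice_sdiff_singleton_mem_nhds (a j + a j))
    have e2' : ∀ᶠ z in 𝓝 (a j), ∀ i, i ≠ j → z + a i ∉ L'.lattice := by
      rw [eventually_all]
      intro i
      by_cases hij : i = j
      · exact Eventually.of_forall (fun z hne => absurd hij hne)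
      · filter_upwards [e2 i hij] with z hz _ using hz
    rw [eventually_nhdsWithin_iff]
    filter_upwards [e1, e2', e3] with z hz1 hz2 hz3 hzne
    have hza : ∀ i, z + a i ∉ L'.lattice := by
      intro i
      by_cases hij : i = j
      · subst hij
        intro hm
        apply hz3
        refine ⟨hm, ?_⟩
        intro heq
        apply hzne
        have : z + a i = a i + a i := heq
        exact add_right_cancel this
      · exact hz2 i hij
    have := h.normF_eq ha z hz1 hza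
    rw [hn, normF_succ, Nat.add_sub_cancel] at this
    show ℘'[L] z * normR L n z₀ z - P * ℘'[L'] z = 0
    rw [this]
    ring
  have hD0 : ∀ᶠ z in 𝓝 (a j), D z = 0 :=
    hDA.frequently_zero_iff_eventually_zero.mp hev.frequently
  have hderiv : deriv D (a j) = 0 := by
    have : D =ᶠ[𝓝 (a j)] fun _ => (0 : ℂ) := hD0
    rw [this.deriv_eq]
    simp
  rw [hDD.deriv] at hderiv
  linear_combination hderiv

omit h in
lemma normR_zero_eq (n : ℕ) :
    normR L n z₀ 0 = ∏ k ∈ Finset.Icc 1 n, ℘'[L] ((k : ℂ) * z₀) := by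
  unfold normR
  simp only [zero_add]
  rw [Finset.range_eq_Ico, Finset.prod_Ico_add' (fun k : ℕ => ℘'[L] ((k : ℂ) * z₀)) 0 n 1]
  congr 1

/-- **(V2)**, in terms of `normR`. -/
theorem disc_mul_normR_pow : disc L' * normR L (p - 1) z₀ 0 ^ 4 = disc L ^ p := by
  have ha : IsHalfTriple L (stdHalf L) := isHalfTriple_std L
  have ha' : IsHalfTriple L' (stdHalf L) := h.isHalfTriple ha
  set a := stdHalf L with hadef
  obtain ⟨n, hn⟩ : ∃ n, p = n + 1 := ⟨p - 1, by have := h.prime.pos; omega⟩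
  have hn' : p - 1 = n := by omega
  have hC := fun j => h.wpPP_mul_normR ha j
  rw [hn'] at hC ⊢
  set P : ℂ := normR L n z₀ 0 with hP
  -- product of (C) over the three half periods
  have h1 : (∏ j, (6 * ℘[L] (a j) ^ 2 - L.g₂ / 2)) * ∏ j, normR L n z₀ (a j)
      = P ^ 3 * ∏ j, (6 * ℘[L'] (a j) ^ 2 - L'.g₂ / 2) := by
    rw [← Finset.prod_mul_distrib, Finset.prod_congr rfl (fun j _ => hC j),
      Finset.prod_mul_distrib, Finset.prod_const, Finset.card_univ, Fintype.card_fin]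
  rw [ha.prod_wpPP, ha'.prod_wpPP] at h1
  -- (B) at the points `(k+1) z₀`
  have hB : ∀ k ∈ Finset.range n, ℘'[L] (((k + 1 : ℕ) : ℂ) * z₀)
      * ∏ j, ℘'[L] (((k + 1 : ℕ) : ℂ) * z₀ + a j) = disc L := by
    intro k hk
    have hk' : k + 1 < p := by have := Finset.mem_range.1 hk; omega
    apply (ha.halfProd_eq).2
    · exact h.nat_mul_notMem_of_lt (Nat.succ_pos k) hk'
    · intro j
      have := h.notMem_add (ha'.notMem j) (k + 1)
      rwa [add_comm] at this
  have h2 : P * ∏ j, normR L n z₀ (a j) = disc L ^ n := by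
    have e1 : ∏ k ∈ Finset.range n, (℘'[L] (((k + 1 : ℕ) : ℂ) * z₀)
        * ∏ j, ℘'[L] (((k + 1 : ℕ) : ℂ) * z₀ + a j)) = disc L ^ n := by
      rw [Finset.prod_congr rfl hB, Finset.prod_const, Finset.card_range]
    rw [Finset.prod_mul_distrib, Finset.prod_comm] at e1
    rw [← e1]
    congr 1
    · rw [hP]
      unfold normR
      refine Finset.prod_congr rfl (fun k _ => ?_)
      rw [zero_add]
    · refine Finset.prod_congr rfl (fun j _ => ?_)
      unfold normR
      refine Finset.prod_congr rfl (fun k _ => ?_)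
      rw [add_comm]
  rw [hn, pow_succ]
  linear_combination (2 * P) * h1 + (disc L) * h2

/-- **(V2)**: `disc L' · (∏_{k=1}^{p−1} ℘'_L(k z₀))⁴ = (disc L)^p`. -/
theorem disc_mul_prod_pow :
    disc L' * (∏ k ∈ Finset.Icc 1 (p - 1), ℘'[L] ((k : ℂ) * z₀)) ^ 4 = disc L ^ p := by
  rw [← normR_zero_eq]
  exact h.disc_mul_normR_pow

end IsSuper

end Fermat.Agent.S15lib.Dict.EA

end
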